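import Fermat.Agent.S27x.Desc.FieldOfDef
import Fermat.Agent.Gateway.BaseChange.BCDiv

/-!
# P-S27, block C: `Contract.T2` (finite transcendence degree suffices) by counting

`T2` is proved from the field of definition with prescribed finite data
(`exists_fieldOfDef_with`) and the following input `G3Core` from the constant-field-extension
block (G3): for algebraically closed `K ⊆ L` and `F₁ = L · F₀`, the genus is invariant, there is a
base-change `Setup K L F₀ F₁` with `ι` the inclusion, and `bcPic0` is injective.

No finiteness of `Pic⁰(F₁)[n]` is assumed: it is *deduced* by counting at the finitely generated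
levels, where the count is known by hypothesis.
-/

set_option autoImplicit false
set_option linter.unusedSectionVars false
set_option linter.style.haveILetI false

noncomputable section

open AlgebraicCurve IntermediateField

namespace Fermat.Agent.S27x.Desc

open Fermat.Agent.S27x.Contract Fermat.Agent.Gateway.BaseChange

universe u v

/-- The input from block G3 (extension of the algebraically closed constant field). -/
def G3Core : Prop :=
  ∀ (K L : Type u) (F₀ F₁ : Type v) [Field K] [Field L] [Field F₀] [Field F₁]
    [Algebra K L] [Algebra K F₀] [Algebra L F₁] [Algebra F₀ F₁] [Algebra K F₁]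
    [IsScalarTower K F₀ F₁] [IsScalarTower K L F₁]
    [IsAlgClosed K] [IsAlgClosed L] [CharZero K]
    [IsCurveOver K F₀] [Algebra.EssFiniteType K F₀]
    [IsCurveOver L F₁] [Algebra.EssFiniteType L F₁],
    IntermediateField.adjoin L (Set.range (algebraMap F₀ F₁)) = ⊤ →
      genusFF K F₀ = genusFF L F₁ ∧
        ∃ S : Setup K L F₀ F₁, (∀ f : F₀, S.ι f = algebraMap F₀ F₁ f) ∧
          ∀ hK : (∀ v : Place K F₀, Function.Surjective (algebraMap K v.ResidueField)),
            Function.Injective (S.bcPic0 hK)

section Abstract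

variable {K L F0 F1 : Type*} [Field K] [Field L] [Field F0] [Field F1]
  [Algebra K L] [Algebra K F0] [Algebra L F1] (S : Setup K L F0 F1)
  (hK : ∀ v : Place K F0, Function.Surjective (algebraMap K v.ResidueField))

/-- A divisor supported on extended places is a base change. -/
theorem exists_bc_eq_of_support (D : Divisor L F1)
    (h : ∀ w ∈ D.support, w ∈ Set.range (S.extPlace hK)) : ∃ D0 : Divisor K F0, S.bc hK D0 = D := by
  refine ⟨Finsupp.comapDomain (S.extPlace hK) D (S.extPlace_injective hK).injOn, ?_⟩
  rw [Setup.bc_def]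
  exact Finsupp.mapDomain_comapDomain (S.extPlace hK) (S.extPlace_injective hK) D
    fun w hw => h w hw

/-- `bcPic0` maps `n`-torsion to `n`-torsion. -/
theorem bcPic0_mem_torsion {n : ℕ} {c : Pic0 K F0} (hc : c ∈ Pic0.torsion K F0 n) :
    S.bcPic0 hK c ∈ Pic0.torsion L F1 n := by
  rw [Pic0.mem_torsion] at hc ⊢
  rw [← map_zsmul, hc, map_zero]

/-- A torsion class represented by a divisor supported on extended places comes from below. -/
theorem exists_bcPic0_eq_of_support (hinj : Function.Injective (S.bcPic0 hK)) {n : ℕ}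
    (D : Divisor.degZero (K := L) (F := F1))
    (hD : ∀ w ∈ (D : Divisor L F1).support, w ∈ Set.range (S.extPlace hK))
    (hn : Pic0.mk D ∈ Pic0.torsion L F1 n) :
    ∃ c₀ ∈ Pic0.torsion K F0 n, S.bcPic0 hK c₀ = Pic0.mk D := by
  obtain ⟨D0, hD0⟩ := exists_bc_eq_of_support S hK (D : Divisor L F1) hD
  have hdeg : D0 ∈ Divisor.degZero (K := K) (F := F0) := by
    rw [Divisor.mem_degZero, ← S.degree_bc hK, hD0]
    exact D.2
  have hmk : S.bcPic0 hK (Pic0.mk ⟨D0, hdeg⟩) = Pic0.mk D := by
    rw [Setup.bcPic0_mk]
    congr 1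
    exact Subtype.ext hD0
  refine ⟨Pic0.mk ⟨D0, hdeg⟩, ?_, hmk⟩
  rw [Pic0.mem_torsion] at hn ⊢
  apply hinj
  rw [map_zsmul, hmk, hn, map_zero]

end Abstract

section Level

variable (hG : G3Core.{u, v})
  (hfin : ∀ (d : ℕ) (K : Type u) [Field K] [IsAlgClosed K] [CharZero K],
      FinGen K d → CountOKOver.{u, v} K)

include hG hfin

/-- **A finitely generated level adapted to finite data** `Y ⊆ F`: a finite set `A` with
`n^(2g)` elements injecting into `Pic⁰(F)[n]`, whose image contains every torsion class
represented by a divisor supported on places detected by `Y`. -/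
theorem exists_level (K : Type u) (F : Type v) [Field K] [Field F] [Algebra K F]
    [IsAlgClosed K] [CharZero K] [IsCurveOver K F] [Algebra.EssFiniteType K F]
    (n : ℕ) (hn : 0 < n) (Y : Finset F) :
    ∃ (A : Type v) (_ : Finite A) (φ : A → Pic0.torsion K F n), Function.Injective φ ∧
      Nat.card A = n ^ (2 * genusFF K F) ∧
      ∀ D : Divisor.degZero (K := K) (F := F), Pic0.mk D ∈ Pic0.torsion K F n →
        (∀ w ∈ (D : Divisor K F).support, ∃ y ∈ Y, w.ord y ≠ 0) →
          ∃ a, (φ a : Pic0 K F) = Pic0.mk D := by
  classical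
  obtain ⟨s, F₁, -, hc, he, hgen, hY⟩ := exists_fieldOfDef_with K F ∅ Y
  haveI := hc
  haveI := he
  obtain ⟨hg, S, hι, hinj⟩ := hG (fieldOfDef s) K F₁ F hgen
  have hK : ∀ v : Place (fieldOfDef s) F₁,
      Function.Surjective (algebraMap (fieldOfDef s) v.ResidueField) := by
    intro v
    haveI : Module.Finite (fieldOfDef s) v.ResidueField := IsCurveOver.finiteResidue v
    haveI : Algebra.IsIntegral (fieldOfDef s) v.ResidueField :=
      Algebra.IsIntegral.of_finite (fieldOfDef s) v.ResidueField
    exact (IsAlgClosed.algebraMap_bijective_of_isIntegral).2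
  have hcount : Nat.card (Pic0.torsion (fieldOfDef s) F₁ n) = n ^ (2 * genusFF K F) := by
    rw [← hg]
    exact hfin s.card (fieldOfDef s) (finGen_fieldOfDef s) F₁ n hn
  have hfinA : Finite (Pic0.torsion (fieldOfDef s) F₁ n) := by
    apply Nat.finite_of_card_ne_zero
    rw [hcount]
    exact (pow_pos hn _).ne'
  refine ⟨Pic0.torsion (fieldOfDef s) F₁ n, hfinA,
    fun a => ⟨S.bcPic0 hK a, bcPic0_mem_torsion S hK a.2⟩, ?_, hcount, ?_⟩
  · intro a b hab
    apply Subtype.ext
    apply hinj hK
    exact congrArg Subtype.val hab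
  · intro D hD hsupp
    have hrange : ∀ w ∈ (D : Divisor K F).support, w ∈ Set.range (S.extPlace hK) := by
      intro w hw
      obtain ⟨y, hy, hwy⟩ := hsupp w hw
      rw [S.mem_range_extPlace_iff hK]
      refine ⟨⟨y, hY y hy⟩, ?_⟩
      rw [hι]
      exact hwy
    obtain ⟨c₀, hc₀, hc₀D⟩ := exists_bcPic0_eq_of_support S hK (hinj hK) D hrange hD
    exact ⟨⟨c₀, hc₀⟩, hc₀D⟩

/-- `(T2)`: the count at all finitely generated levels implies the count everywhere. -/
theorem countOK_of_levels (K : Type u) (F : Type v) [Field K] [Field F] [Algebra K F]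
    [IsAlgClosed K] [CharZero K] [IsCurveOver K F] [Algebra.EssFiniteType K F] :
    CountOK K F := by
  classical
  intro n hn
  set N := n ^ (2 * genusFF K F) with hN
  -- every finite subset has at most `N` elements
  have hupper : ∀ C : Finset (Pic0.torsion K F n), C.card ≤ N := by
    intro C
    -- representatives and uniformisers
    choose rep hrep using fun c : Pic0.torsion K F n => Pic0.mk_surjective (c : Pic0 K F)
    choose unif hunif using fun w : Place K F =>
      Fermat.Agent.S24.ZD.PlaceLemmas.exists_ord_eq_one w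
    let Y : Finset F := C.biUnion fun c => ((rep c : Divisor K F).support).image unif
    obtain ⟨A, hA, φ, hφ, hcard, hsurj⟩ := exists_level hG hfin K F n hn Y
    have hsub : ∀ c ∈ C, ∃ a, φ a = c := by
      intro c hc
      have h1 : Pic0.mk (rep c) ∈ Pic0.torsion K F n := by rw [hrep c]; exact c.2
      obtain ⟨a, ha⟩ := hsurj (rep c) h1 (fun w hw => ⟨unif w,
        Finset.mem_biUnion.mpr ⟨c, hc, Finset.mem_image_of_mem unif hw⟩, by
          rw [hunif w]; exact one_ne_zero⟩)
      exact ⟨a, Subtype.ext (by rw [ha, hrep c])⟩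
    haveI : Nonempty A := by
      have hpos : 0 < Nat.card A := by rw [hcard]; exact pow_pos hn _
      exact (Nat.card_pos_iff.mp hpos).1
    choose! ψ hψ using hsub
    have hinjψ : Set.InjOn ψ (C : Set (Pic0.torsion K F n)) := by
      intro c hc c' hc' h
      rw [← hψ c hc, ← hψ c' hc', h]
    haveI := Fintype.ofFinite A
    calc C.card = (C.image ψ).card := (Finset.card_image_of_injOn hinjψ).symm
      _ ≤ Fintype.card A := Finset.card_le_univ _
      _ = Nat.card A := (Nat.card_eq_fintype_card).symm
      _ = N := hcard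
  -- finiteness
  haveI hfinite : Finite (Pic0.torsion K F n) := by
    by_contra hinf
    rw [not_finite_iff_infinite] at hinf
    obtain ⟨C, hC⟩ := Infinite.exists_subset_card_eq (Pic0.torsion K F n) (N + 1)
    have := hupper C
    omega
  haveI := Fintype.ofFinite (Pic0.torsion K F n)
  have hle : Nat.card (Pic0.torsion K F n) ≤ N := by
    rw [Nat.card_eq_fintype_card, ← Finset.card_univ]
    exact hupper Finset.univ
  -- lower bound from any level
  obtain ⟨A, hA, φ, hφ, hcard, -⟩ := exists_level hG hfin K F n hn ∅
  have hge : N ≤ Nat.card (Pic0.torsion K F n) := by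
    rw [hN, ← hcard]
    exact Nat.card_le_card_of_injective φ hφ
  exact le_antisymm hle hge

end Level

/-- **`Contract.T2` from the G3 core.** -/
theorem t2_of_g3Core (hG : G3Core.{u, v}) : T2.{u, v} := by
  intro hfin K _ _ _ F _ _ _ _
  exact countOK_of_levels hG hfin K F

end Fermat.Agent.S27x.Desc
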