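import Fermat.Agent.Lib.RiemannRoch.AlgClosedCharZero
import Fermat.Agent.S24.Kaehler

/-!
# P-S27: a function field of one variable is a curve in the sense of `IsCurveOver`

Converse of `Fermat.Agent.S27x.Glue.exists_transcendental_finiteDimensional`: for `K`
algebraically closed of characteristic zero, `x : F` transcendental over `K` and `F / K(x)`
finite, `F` satisfies `IsCurveOver K F` (principal divisors, finite residue fields, Kähler
differentials free of rank one) and is essentially of finite type.
-/

set_option autoImplicit false

noncomputable section

open AlgebraicCurve IntermediateField

namespace Fermat.Agent.S27x.Desc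

variable {K F : Type*} [Field K] [Field F] [Algebra K F] [IsAlgClosed K] [CharZero K]

/-- A function field of one variable over an algebraically closed field of characteristic zero
is a curve in the sense of the Prelude. -/
theorem isCurveOver_of_transcendental {x : F} (hx : Transcendental K x)
    [FiniteDimensional K⟮x⟯ F] : IsCurveOver K F :=
  { toHasPrincipalDivisors := Fermat.Agent.Lib.RiemannRoch.hasPrincipalDivisors_cz hx
    finiteResidue := fun v => (Fermat.Agent.Lib.RiemannRoch.finiteResidue_cz hx v).finite
    kaehler_free_rank_one :=
      ⟨inferInstance, Fermat.Agent.S24.Kaehler.finrank_kaehler x hx⟩ }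

omit [IsAlgClosed K] [CharZero K] in
/-- A function field of one variable is essentially of finite type. -/
theorem essFiniteType_of_transcendental (x : F) [FiniteDimensional K⟮x⟯ F] :
    Algebra.EssFiniteType K F :=
  Fermat.Agent.S24.Kaehler.essFiniteType_of_finiteDimensional_adjoin x

end Fermat.Agent.S27x.Desc
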