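import Fermat.Agent.S27x.Contract
import Fermat.Agent.S27x.Glue.SeparatingElement
import Fermat.Agent.S27x.Desc.CurveOfTranscendental

/-!
# P-S27, block C: field of definition (`Contract.BlockDesc`)

Every curve `F / K` (`K` algebraically closed of characteristic zero) is the compositum
`K · F₁` of `K` with a curve `F₁` over the algebraic closure `fieldOfDef s` (inside `K`) of a
finitely generated subfield `ℚ(s)`.
-/

set_option autoImplicit false
set_option linter.unusedSectionVars false
set_option linter.style.haveILetI false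

noncomputable section

open AlgebraicCurve IntermediateField Polynomial

namespace Fermat.Agent.S27x.Desc

open Fermat.Agent.S27x.Contract

universe u v

section Descent

variable {K : Type u} {F : Type v} [Field K] [Field F] [Algebra K F] [CharZero K]

open scoped IntermediateField.algebraAdjoinAdjoin in
/-- **Descent of an algebraic relation.** If `y` is algebraic over `K(x)`, there is a finite set
`s ⊆ K` such that `y` is algebraic over `k(x)` for every subfield `k ⊇ s` of `K`. -/
theorem exists_finset_isAlgebraic (x y : F) (hy : IsAlgebraic K⟮x⟯ y) :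
    ∃ s : Finset K, ∀ k : IntermediateField ℚ K, (s : Set K) ⊆ k →
      IsAlgebraic (IntermediateField.adjoin k ({x} : Set F)) y := by
  classical
  -- a polynomial over `K[x]`
  have hA : IsAlgebraic (Algebra.adjoin K ({x} : Set F)) y :=
    (IsFractionRing.isAlgebraic_iff (Algebra.adjoin K ({x} : Set F)) K⟮x⟯ F).mpr hy
  obtain ⟨p, hp0, hpy⟩ := hA
  -- its image in `F[X]`
  set pF : F[X] := p.map (algebraMap (Algebra.adjoin K ({x} : Set F)) F) with hpF
  have hpF0 : pF ≠ 0 :=
    (Polynomial.map_ne_zero_iff (FaithfulSMul.algebraMap_injective _ _)).mpr hp0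
  have hpFy : pF.eval y = 0 := by
    rw [hpF, Polynomial.eval_map, ← Polynomial.aeval_def]; exact hpy
  -- lift to `K[X][X]`
  have hlift : pF ∈ Polynomial.lifts ((aeval x : K[X] →ₐ[K] F) : K[X] →+* F) := by
    rw [Polynomial.lifts_iff_coeffs_subset_range]
    intro c hc
    rw [Finset.mem_coe, Polynomial.mem_coeffs_iff] at hc
    obtain ⟨j, -, rfl⟩ := hc
    rw [hpF, Polynomial.coeff_map]
    have hmem : (p.coeff j : F) ∈ (aeval x : K[X] →ₐ[K] F).range :=
      (Algebra.adjoin_singleton_eq_range_aeval K x).le (p.coeff j).2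
    obtain ⟨q, hq⟩ := hmem
    exact ⟨q, hq⟩
  obtain ⟨P, hP⟩ := (Polynomial.mem_lifts _).mp hlift
  refine ⟨P.support.biUnion fun j => (P.coeff j).coeffs, fun k hk => ?_⟩
  -- lift `P` to `k[X][X]`
  have hlift2 : P ∈ Polynomial.lifts (Polynomial.mapRingHom (algebraMap k K)) := by
    rw [Polynomial.lifts_iff_coeffs_subset_range]
    intro c hc
    rw [Finset.mem_coe, Polynomial.mem_coeffs_iff] at hc
    obtain ⟨j, hj, rfl⟩ := hc
    have : P.coeff j ∈ Polynomial.lifts (algebraMap k K) := by
      rw [Polynomial.lifts_iff_coeffs_subset_range]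
      intro a ha
      have : a ∈ (k : Set K) :=
        hk (Finset.mem_coe.mpr (Finset.mem_biUnion.mpr ⟨j, hj, ha⟩))
      exact ⟨⟨a, this⟩, rfl⟩
    obtain ⟨q, hq⟩ := (Polynomial.mem_lifts _).mp this
    exact ⟨q, hq⟩
  obtain ⟨P', hP'⟩ := (Polynomial.mem_lifts _).mp hlift2
  -- the polynomial over `k(x)`
  let E : IntermediateField k F := IntermediateField.adjoin k ({x} : Set F)
  let gx : E := ⟨x, IntermediateField.mem_adjoin_simple_self k x⟩
  let ψ : k[X] →+* E := ((aeval gx : k[X] →ₐ[k] E) : k[X] →+* E)
  have hcomp : (algebraMap E F).comp ψ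
      = ((aeval x : K[X] →ₐ[K] F) : K[X] →+* F).comp (Polynomial.mapRingHom (algebraMap k K)) := by
    ext a
    · simp only [RingHom.coe_comp, Function.comp_apply, Polynomial.coe_mapRingHom,
        Polynomial.map_C, RingHom.coe_coe, Polynomial.aeval_C, ψ]
      rw [← IsScalarTower.algebraMap_apply, ← IsScalarTower.algebraMap_apply]
    · simp only [RingHom.coe_comp, Function.comp_apply, Polynomial.coe_mapRingHom,
        Polynomial.map_X, RingHom.coe_coe, Polynomial.aeval_X, ψ]
      rfl
  have hmap : (P'.map ψ).map (algebraMap E F) = pF := by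
    rw [Polynomial.map_map, hcomp, ← Polynomial.map_map, hP', hP]
  refine ⟨P'.map ψ, fun h0 => hpF0 ?_, ?_⟩
  · rw [← hmap, h0, Polynomial.map_zero]
  · rw [Polynomial.aeval_def, ← Polynomial.eval_map, hmap]
    exact hpFy

/-- The generators of `adjoin k T`, viewed inside `adjoin k T`, generate it. -/
theorem adjoin_preimage_eq_top {k : Type*} [Field k] [Algebra k F] (T : Set F) :
    IntermediateField.adjoin k
      {z : IntermediateField.adjoin k T | (z : F) ∈ T} = ⊤ := by
  apply IntermediateField.map_injective (IntermediateField.adjoin k T).val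
  rw [IntermediateField.adjoin_map, ← AlgHom.fieldRange_eq_map, IntermediateField.fieldRange_val]
  congr 1
  ext z
  constructor
  · rintro ⟨w, hw, rfl⟩
    exact hw
  · intro hz
    exact ⟨⟨z, IntermediateField.subset_adjoin k T hz⟩, hz, rfl⟩

/-- **Transfer into the subfield.** If every generator in `T` is algebraic over `k(x)` (inside
`F`), then `adjoin k T` is algebraic over `k(x₁)`, `x₁` the element `x` of `adjoin k T`. -/
theorem isAlgebraic_adjoin_of_forall {k : Type*} [Field k] [Algebra k F] (T : Set F) (x : F)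
    (hxT : x ∈ T)
    (hT : ∀ y ∈ T, IsAlgebraic (IntermediateField.adjoin k ({x} : Set F)) y) :
    Algebra.IsAlgebraic
      (IntermediateField.adjoin k
        ({(⟨x, IntermediateField.subset_adjoin k T hxT⟩ : IntermediateField.adjoin k T)} :
          Set (IntermediateField.adjoin k T)))
      (IntermediateField.adjoin k T) := by
  set F₁ : IntermediateField k F := IntermediateField.adjoin k T with hF₁
  set x₁ : F₁ := ⟨x, IntermediateField.subset_adjoin k T hxT⟩ with hx₁
  set E₁ : IntermediateField k F₁ := IntermediateField.adjoin k ({x₁} : Set F₁) with hE₁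
  set E : IntermediateField k F := IntermediateField.adjoin k ({x} : Set F) with hE
  -- the restriction of `F₁ → F` to `E₁ → E`
  have hmapE : E₁.map F₁.val = E := by
    rw [hE₁, IntermediateField.adjoin_map, Set.image_singleton]
    rfl
  let f : E₁ →+* E :=
    { toFun := fun a => ⟨((a : F₁) : F), by rw [← hmapE]; exact ⟨(a : F₁), a.2, rfl⟩⟩
      map_one' := rfl
      map_mul' := fun _ _ => rfl
      map_zero' := rfl
      map_add' := fun _ _ => rfl }
  have hf : Function.Surjective f := by
    rintro ⟨a, ha⟩
    have ha' := ha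
    rw [← hmapE] at ha'
    obtain ⟨w, hw, hwa⟩ := ha'
    exact ⟨⟨w, hw⟩, Subtype.ext hwa⟩
  have hgen : ∀ z : F₁, (z : F) ∈ T → IsAlgebraic E₁ z := by
    intro z hz
    refine IsAlgebraic.of_ringHom_of_comp_eq (f := f) (g := (F₁.val : F₁ →+* F))
      (hT _ hz) hf F₁.val.injective ?_
    rfl
  -- the algebraic closure of `E₁` in `F₁` is everything
  have htop : (algebraicClosure E₁ F₁).restrictScalars k = ⊤ := by
    rw [eq_top_iff, ← adjoin_preimage_eq_top (k := k) T, IntermediateField.adjoin_le_iff]
    intro z hz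
    exact mem_algebraicClosure_iff.mpr (hgen z hz)
  refine ⟨fun z => ?_⟩
  have hz : z ∈ (algebraicClosure E₁ F₁).restrictScalars k := by
    rw [htop]; exact IntermediateField.mem_top
  exact mem_algebraicClosure_iff.mp hz

end Descent

section Main

/-- **Field of definition, with prescribed finite data**: given finite sets `s₀ ⊆ K` and
`Y ⊆ F`, the curve `F / K` is the compositum of `K` with a curve `F₁ ∋ Y` over `fieldOfDef s`,
`s ⊇ s₀`. -/
theorem exists_fieldOfDef_with (K : Type u) (F : Type v) [Field K] [Field F] [Algebra K F]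
    [IsAlgClosed K] [CharZero K] [IsCurveOver K F] [Algebra.EssFiniteType K F]
    (s₀ : Finset K) (Y : Finset F) :
    ∃ (s : Finset K) (F₁ : IntermediateField (fieldOfDef s) F), s₀ ⊆ s ∧
      IsCurveOver (fieldOfDef s) F₁ ∧ Algebra.EssFiniteType (fieldOfDef s) F₁ ∧
        IntermediateField.adjoin K (Set.range (algebraMap F₁ F)) = ⊤ ∧ ∀ y ∈ Y, y ∈ F₁ := by
  classical
  obtain ⟨x, hx, hfin, -⟩ := Fermat.Agent.S27x.Glue.exists_transcendental_finiteDimensional
    (K := K) (F := F)
  obtain ⟨t, ht⟩ := IntermediateField.fg_top K F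
  -- finitely many constants suffice
  haveI hKalg : Algebra.IsAlgebraic K⟮x⟯ F := Algebra.IsAlgebraic.of_finite K⟮x⟯ F
  choose sfun hsfun using fun y : F =>
    exists_finset_isAlgebraic (K := K) x y (hKalg.isAlgebraic y)
  let s : Finset K := s₀ ∪ (t ∪ Y).biUnion sfun
  let k₁ : IntermediateField ℚ K := fieldOfDef s
  have hsk : (s : Set K) ⊆ k₁ := subset_fieldOfDef s
  let T : Set F := insert x ((t ∪ Y : Finset F) : Set F)
  have hxT : x ∈ T := Set.mem_insert x _
  let F₁ : IntermediateField k₁ F := IntermediateField.adjoin k₁ T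
  refine ⟨s, F₁, Finset.subset_union_left, ?_⟩
  -- every generator is algebraic over `k₁(x)`
  have hT : ∀ y ∈ T, IsAlgebraic (IntermediateField.adjoin k₁ ({x} : Set F)) y := by
    intro y hy
    rcases Set.mem_insert_iff.mp hy with rfl | hyt
    · exact isAlgebraic_algebraMap
        (⟨y, IntermediateField.mem_adjoin_simple_self k₁ y⟩ :
          IntermediateField.adjoin k₁ ({y} : Set F))
    · refine hsfun y k₁ (subset_trans ?_ hsk)
      intro a ha
      exact Finset.mem_coe.mpr (Finset.mem_union_right _
        (Finset.mem_biUnion.mpr ⟨y, Finset.mem_coe.mp hyt, ha⟩))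
  let x₁ : F₁ := ⟨x, IntermediateField.subset_adjoin k₁ T hxT⟩
  haveI halg : Algebra.IsAlgebraic (IntermediateField.adjoin k₁ ({x₁} : Set F₁)) F₁ :=
    isAlgebraic_adjoin_of_forall (k := k₁) T x hxT hT
  have hTfin : T.Finite := (Finset.finite_toSet (t ∪ Y)).insert x
  haveI hess : Algebra.EssFiniteType k₁ F₁ := by
    refine IntermediateField.essFiniteType_iff.mpr ⟨hTfin.toFinset, ?_⟩
    rw [Set.Finite.coe_toFinset]
  haveI : Algebra.EssFiniteType (IntermediateField.adjoin k₁ ({x₁} : Set F₁)) F₁ :=
    Algebra.EssFiniteType.of_comp k₁ _ F₁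
  haveI hfd : FiniteDimensional (IntermediateField.adjoin k₁ ({x₁} : Set F₁)) F₁ :=
    Algebra.finite_of_essFiniteType_of_isAlgebraic
  have hx₁ : Transcendental k₁ x₁ := by
    intro hxa
    apply hx
    have h1 : IsAlgebraic k₁ x := by
      have := hxa.algHom F₁.val
      exact this
    exact h1.tower_top K
  refine ⟨isCurveOver_of_transcendental (K := k₁) (F := F₁) hx₁, hess, ?_, ?_⟩
  · -- `K · F₁ = F`
    rw [eq_top_iff, ← ht, IntermediateField.adjoin_le_iff]
    intro y hy
    refine IntermediateField.subset_adjoin K _ ?_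
    exact ⟨⟨y, IntermediateField.subset_adjoin k₁ T (Set.mem_insert_of_mem x
      (Finset.mem_coe.mpr (Finset.mem_union_left _ (Finset.mem_coe.mp hy))))⟩, rfl⟩
  · intro y hy
    exact IntermediateField.subset_adjoin k₁ T (Set.mem_insert_of_mem x
      (Finset.mem_coe.mpr (Finset.mem_union_right _ hy)))

/-- **Field of definition** (`Contract.BlockDesc`): every curve over an algebraically closed field
`K` of characteristic zero is the compositum of `K` with a curve over the algebraic closure (in
`K`) of a finitely generated subfield. -/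
theorem blockDesc : BlockDesc.{u, v} := by
  intro K F _ _ _ _ _ _ _
  obtain ⟨s, F₁, -, h1, h2, h3, -⟩ := exists_fieldOfDef_with K F ∅ ∅
  exact ⟨s, F₁, h1, h2, h3⟩

end Main

end Fermat.Agent.S27x.Desc
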